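import Mathlib
import Fermat.Agent.LT.T7.H305.MatchCut
import Fermat.Agent.LT.T7.H159.RestrGL
import Fermat.Agent.LT.T7.H159.GoodUnit

/-!
# Row LT, tower T7, leaf T7.L2.1.C2.7.5 `TorSplitC305` (helper925, spare) -- core

OFF-MAIN.  No hole, nothing assumed.  ADDITIVE (suffix `925`).

The adelic torus `T_𝔸(γ)` (the centraliser of `γ` in `GL₂(𝔸_K)`), its components in the local
tori `T_v`, `T_w`, the open subgroups `E_S = {t : t_v ∈ GL₂(𝒪_v), v ∉ S}`, and the homomorphism
`q_S : T_𝔸(γ) → ∏_{v ∈ S} T_v × ∏_w T_w`: continuous, onto on `E_S` (`K` totally complex),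
proper on `E_S`.  Assets of helper159 (`HaarSplit.lean`, `RestrGL.lean`, `GoodUnit.lean`).
-/

set_option autoImplicit false

open AutomorphicForm IsDedekindDomain NumberField MeasureTheory

noncomputable section

namespace Fermat.Agent.LT.T7.H925.TorSplit

open Fermat.Agent.LT Fermat.Agent.LT.H556 Fermat.Agent.LT.H556.A0 Fermat.Agent.LT.T7
open Fermat.Agent.LT.T7.H305 Fermat.Agent.LT.T7.H159

/-! ## 1. Twisted centralisers (abstract) -/

theorem mem_twCentSub_map925 {A B : Type} [Group A] [Group B] (f : A →* B) (s : A →* A)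
    (s' : B →* B) (δ x : A) (hs : f (s x) = s' (f x)) (hx : x ∈ T6.twCentSub s δ) :
    f x ∈ T6.twCentSub s' (f δ) := by
  change (f x)⁻¹ * f δ * s' (f x) = f δ
  have h : x⁻¹ * δ * s x = δ := hx
  have := congrArg f h
  rw [map_mul, map_mul, map_inv, hs] at this
  exact this

theorem isClosed_twCentSub925 {Γ : Type} [Group Γ] [TopologicalSpace Γ] [IsTopologicalGroup Γ]
    [T2Space Γ] (s : Γ →* Γ) (hs : Continuous s) (δ : Γ) :
    IsClosed (T6.twCentSub s δ : Set Γ) :=
  isClosed_eq ((continuous_inv.mul continuous_const).mul hs) continuous_const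

/-! ## 2. Local: `U(0)`, integrality, the maximal compact subgroup of a good torus -/

section Local

variable {k : Type} [Field k] [Valued k T6.Γ₀]

omit [Valued k T6.Γ₀] in
theorem glAut_refl925 (x : GL (Fin 2) k) : T6.glAut (RingEquiv.refl k) x = x := by
  apply Units.ext
  ext a b
  rfl

theorem continuous_glAut_refl925 : Continuous (T6.glAut (RingEquiv.refl k)) := by
  have : (T6.glAut (RingEquiv.refl k) : GL (Fin 2) k → GL (Fin 2) k) = id := by
    funext x
    exact glAut_refl925 x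
  rw [this]
  exact continuous_id

omit [Valued k T6.Γ₀] in
theorem mem_locTor_iff925 (γ t : GL (Fin 2) k) :
    t ∈ T6.twCentSub (T6.glAut (RingEquiv.refl k)) γ ↔ t * γ = γ * t := by
  change t⁻¹ * γ * T6.glAut (RingEquiv.refl k) t = γ ↔ _
  rw [glAut_refl925]
  constructor
  · intro h
    calc t * γ = t * (t⁻¹ * γ * t) := by rw [h]
      _ = γ * t := by group
  · intro h
    calc t⁻¹ * γ * t = t⁻¹ * (γ * t) := by group
      _ = t⁻¹ * (t * γ) := by rw [h]
      _ = γ := by group

/-- For a good `γ` the maximal compact subgroup `{tr integral, det a unit}` of the torus is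
`T ∩ GL₂(𝒪)`. -/
theorem locTor_compact_iff925 (γ t : GL (Fin 2) k) (hγ : T6.InU 0 γ)
    (hd : Valued.v (T6.disc γ) = 1) (ht : t ∈ T6.twCentSub (T6.glAut (RingEquiv.refl k)) γ) :
    (Valued.v (t : Matrix (Fin 2) (Fin 2) k).trace ≤ 1 ∧
      Valued.v (t : Matrix (Fin 2) (Fin 2) k).det = 1) ↔ T6.InU 0 t := by
  constructor
  · rintro ⟨h1, h2⟩
    exact cent_compact159 γ t hγ hd ((mem_locTor_iff925 γ t).1 ht) h1 h2
  · intro h
    refine ⟨?_, T6.H687.v_det_eq_one_of_inU_h687 h⟩
    rw [Matrix.trace_fin_two]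
    exact (Valuation.map_add _ _ _).trans
      (max_le (T6.H687.entry_le_one_of_inU_h687 h 0 0)
        (T6.H687.entry_le_one_of_inU_h687 h 1 1))

end Local

variable {K : Type} [Field K] [NumberField K]

theorem mem_intGL_iff925 (v : HeightOneSpectrum (𝓞 K)) (x : GL (Fin 2) (v.adicCompletion K)) :
    x ∈ intGL159 K v ↔ T6.InU 0 x := by
  constructor
  · rintro ⟨h1, h2⟩
    apply T6.H288.H546.inU_zero_of_integral_h546
    · intro i j
      exact (HeightOneSpectrum.mem_adicCompletionIntegers (𝓞 K) K v).1 (h1 i j)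
    · intro i j
      exact (HeightOneSpectrum.mem_adicCompletionIntegers (𝓞 K) K v).1 (h2 i j)
  · intro h
    exact ⟨fun i j => (HeightOneSpectrum.mem_adicCompletionIntegers (𝓞 K) K v).2
        (T6.H687.entry_le_one_of_inU_h687 h i j),
      fun i j => (HeightOneSpectrum.mem_adicCompletionIntegers (𝓞 K) K v).2
        (T6.H687.entry_inv_le_one_of_inU_h687 h i j)⟩

/-! ## 3. The adelic torus and its components -/

/-- The adelic torus `T_𝔸(γ)`. -/
abbrev TA925 (γ : GL (Fin 2) K) : Subgroup (G K) := tA305 (T5.AdelicAut.id K) γ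

/-- The local torus at the finite place `v`. -/
abbrev Tv925 (γ : GL (Fin 2) K) (v : HeightOneSpectrum (𝓞 K)) :
    Subgroup (GL (Fin 2) (v.adicCompletion K)) :=
  T6.twCentSub (T6.glAut (RingEquiv.refl (v.adicCompletion K))) (locG305 v γ)

/-- The local torus at the infinite place `w`. -/
abbrev Tw925 (γ : GL (Fin 2) K) (w : InfinitePlace K) : Subgroup (GL (Fin 2) ℂ) :=
  cent305 (archG305 w γ)

theorem finGL_ratG925 (v : HeightOneSpectrum (𝓞 K)) (γ : GL (Fin 2) K) :
    finGL305 v (T5.ratG γ) = locG305 v γ := by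
  apply Units.ext
  ext i j
  rfl

theorem onG_id925 (t : G K) : (T5.AdelicAut.id K).onG t = t := by
  apply Units.ext
  ext i j
  rfl

theorem continuous_onG_id925 : Continuous ((T5.AdelicAut.id K).onG) := by
  have : ((T5.AdelicAut.id K).onG : G K → G K) = id := by
    funext x
    exact onG_id925 x
  rw [this]
  exact continuous_id

theorem isClosed_TA925 (γ : GL (Fin 2) K) : IsClosed (TA925 γ : Set (G K)) := by
  have : T2Space (G K) := H11.LC.t2Space_GL2_adeleRing_h11 K
  exact isClosed_twCentSub925 _ continuous_onG_id925 _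

theorem isClosed_Tv925 (γ : GL (Fin 2) K) (v : HeightOneSpectrum (𝓞 K)) :
    IsClosed (Tv925 γ v : Set (GL (Fin 2) (v.adicCompletion K))) :=
  isClosed_twCentSub925 _ continuous_glAut_refl925 _

theorem isClosed_Tw925 (γ : GL (Fin 2) K) (w : InfinitePlace K) :
    IsClosed (Tw925 γ w : Set (GL (Fin 2) ℂ)) :=
  isClosed_twCentSub925 _ continuous_id _

theorem finGL_mem925 (γ : GL (Fin 2) K) (v : HeightOneSpectrum (𝓞 K)) (t : G K)
    (ht : t ∈ TA925 γ) : finGL305 v t ∈ Tv925 γ v := by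
  have h := mem_twCentSub_map925 (finGL305 v) (T5.AdelicAut.id K).onG
    (T6.glAut (RingEquiv.refl (v.adicCompletion K))) (T5.ratG γ) t
    (by rw [onG_id925, glAut_refl925]) ht
  rw [finGL_ratG925] at h
  exact h

theorem infGL_mem925 (γ : GL (Fin 2) K) (w : InfinitePlace K) (t : G K)
    (ht : t ∈ TA925 γ) : infGL305 w t ∈ Tw925 γ w :=
  mem_twCentSub_map925 (infGL305 w) (T5.AdelicAut.id K).onG
    (MonoidHom.id _) (T5.ratG γ) t (by rw [onG_id925]; rfl) ht

/-- An element of `GL₂(𝔸_K)` is determined by its components. -/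
theorem G_ext925 {g h : G K} (hI : ∀ w : InfinitePlace K, infGL305 w g = infGL305 w h)
    (hF : ∀ v : HeightOneSpectrum (𝓞 K), finGL305 v g = finGL305 v h) : g = h := by
  apply Units.ext
  refine adMat_ext159 (fun w => ?_) (fun v => ?_)
  · refine Matrix.ext fun i j => ?_
    have h1 := congrArg (fun u : GL (Fin 2) ℂ => (u : Matrix (Fin 2) (Fin 2) ℂ) i j) (hI w)
    exact (InfinitePlace.Completion.extensionEmbedding w).injective h1
  · exact congrArg (fun u : GL (Fin 2) (v.adicCompletion K) =>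
      (u : Matrix (Fin 2) (Fin 2) (v.adicCompletion K))) (hF v)

theorem mem_TA_of925 (γ : GL (Fin 2) K) (g : G K)
    (hF : ∀ v : HeightOneSpectrum (𝓞 K), finGL305 v g ∈ Tv925 γ v)
    (hI : ∀ w : InfinitePlace K, infGL305 w g ∈ Tw925 γ w) : g ∈ TA925 γ := by
  change g⁻¹ * T5.ratG γ * (T5.AdelicAut.id K).onG g = T5.ratG γ
  rw [onG_id925]
  apply G_ext925
  · intro w
    rw [map_mul, map_mul, map_inv]
    exact hI w
  · intro v
    rw [map_mul, map_mul, map_inv, finGL_ratG925]
    have := hF v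
    change (finGL305 v g)⁻¹ * locG305 v γ * T6.glAut (RingEquiv.refl _) (finGL305 v g)
      = locG305 v γ at this
    rw [glAut_refl925] at this
    exact this

/-- The component of `T_𝔸(γ)` at the finite place `v`. -/
def pv925 (γ : GL (Fin 2) K) (v : HeightOneSpectrum (𝓞 K)) : TA925 γ →* Tv925 γ v :=
  ((finGL305 v).comp (TA925 γ).subtype).codRestrict (Tv925 γ v)
    (fun t => finGL_mem925 γ v t.1 t.2)

/-- The component of `T_𝔸(γ)` at the infinite place `w`. -/
def pw925 (γ : GL (Fin 2) K) (w : InfinitePlace K) : TA925 γ →* Tw925 γ w :=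
  ((infGL305 w).comp (TA925 γ).subtype).codRestrict (Tw925 γ w)
    (fun t => infGL_mem925 γ w t.1 t.2)

@[simp] theorem coe_pv925 (γ : GL (Fin 2) K) (v : HeightOneSpectrum (𝓞 K)) (t : TA925 γ) :
    ((pv925 γ v t : Tv925 γ v) : GL (Fin 2) (v.adicCompletion K)) = finGL305 v (t : G K) := rfl

@[simp] theorem coe_pw925 (γ : GL (Fin 2) K) (w : InfinitePlace K) (t : TA925 γ) :
    ((pw925 γ w t : Tw925 γ w) : GL (Fin 2) ℂ) = infGL305 w (t : G K) := rfl

theorem continuous_finGL925 (v : HeightOneSpectrum (𝓞 K)) : Continuous (finGL305 (K := K) v) :=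
  continuous_locProj159 (K := K) (Sum.inr v)

theorem continuous_infGL925 (w : InfinitePlace K) : Continuous (infGL305 (K := K) w) :=
  continuous_locProj159 (K := K) (Sum.inl w)

theorem continuous_pv925 (γ : GL (Fin 2) K) (v : HeightOneSpectrum (𝓞 K)) :
    Continuous (pv925 γ v) :=
  Continuous.subtype_mk ((continuous_finGL925 v).comp continuous_subtype_val) _

theorem continuous_pw925 (γ : GL (Fin 2) K) (w : InfinitePlace K) :
    Continuous (pw925 γ w) :=
  Continuous.subtype_mk ((continuous_infGL925 w).comp continuous_subtype_val) _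

/-! ## 4. The product of the local tori, the projection, the open subgroups -/

/-- `∏_{v ∈ S} T_v × ∏_w T_w`. -/
abbrev HS925 (γ : GL (Fin 2) K) (S : Finset (HeightOneSpectrum (𝓞 K))) : Type :=
  (∀ v : S, Tv925 γ v.1) × (∀ w : InfinitePlace K, Tw925 γ w)

/-- The projection `T_𝔸(γ) → ∏_{v ∈ S} T_v × ∏_w T_w`. -/
def qS925 (γ : GL (Fin 2) K) (S : Finset (HeightOneSpectrum (𝓞 K))) :
    TA925 γ →* HS925 γ S :=
  MonoidHom.prod (MonoidHom.pi fun v : S => pv925 γ v.1) (MonoidHom.pi fun w => pw925 γ w)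

theorem qS_fst925 (γ : GL (Fin 2) K) (S : Finset (HeightOneSpectrum (𝓞 K))) (t : TA925 γ)
    (v : S) : (qS925 γ S t).1 v = pv925 γ v.1 t := rfl

theorem qS_snd925 (γ : GL (Fin 2) K) (S : Finset (HeightOneSpectrum (𝓞 K))) (t : TA925 γ)
    (w : InfinitePlace K) : (qS925 γ S t).2 w = pw925 γ w t := rfl

theorem continuous_qS925 (γ : GL (Fin 2) K) (S : Finset (HeightOneSpectrum (𝓞 K))) :
    Continuous (qS925 γ S) :=
  Continuous.prodMk (continuous_pi fun v => continuous_pv925 γ v.1)
    (continuous_pi fun w => continuous_pw925 γ w)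

/-- The open subgroup `E_S = {t ∈ T_𝔸(γ) : t_v ∈ GL₂(𝒪_v), v ∉ S}`. -/
def ES925 (γ : GL (Fin 2) K) (S : Finset (HeightOneSpectrum (𝓞 K))) : Subgroup (TA925 γ) :=
  (restrSub159 (locProj159 K) (locK159 K) (baseSet159 K S)).subgroupOf (TA925 γ)

theorem mem_ES_iff_out925 (γ : GL (Fin 2) K) (S : Finset (HeightOneSpectrum (𝓞 K)))
    (t : TA925 γ) : t ∈ ES925 γ S ↔ OutT305 S (t : G K) :=
  mem_restrSub_base159 S (t : G K)

theorem mem_ES_iff925 (γ : GL (Fin 2) K) (S : Finset (HeightOneSpectrum (𝓞 K)))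
    (t : TA925 γ) :
    t ∈ ES925 γ S ↔ ∀ v : HeightOneSpectrum (𝓞 K), v ∉ S → T6.InU 0 (finGL305 v (t : G K)) := by
  change (t : G K) ∈ restrSub159 (locProj159 K) (locK159 K) (baseSet159 K S) ↔ _
  rw [mem_restrSub159]
  constructor
  · intro h v hv
    have := h (Sum.inr v) fun h' => hv ((inr_mem_baseSet159 S v).1 h')
    exact (mem_intGL_iff925 v _).1 this
  · intro h i hi
    cases i with
    | inl w => exact absurd (inl_mem_baseSet159 S w) hi
    | inr v =>
      exact (mem_intGL_iff925 v _).2 (h v fun h' => hi ((inr_mem_baseSet159 S v).2 h'))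

theorem isOpen_ES925 (γ : GL (Fin 2) K) (S : Finset (HeightOneSpectrum (𝓞 K))) :
    IsOpen (ES925 γ S : Set (TA925 γ)) :=
  (isOpen_restrSub159 (K := K) (baseSet159 K S)).preimage continuous_subtype_val

/-! ## 5. `q_S` is onto on `E_S` (`K` totally complex) -/

open Classical in
theorem surj_qS925 (hK : TotCplx K) (γ : GL (Fin 2) K)
    (S : Finset (HeightOneSpectrum (𝓞 K))) (h : HS925 γ S) :
    ∃ e ∈ ES925 γ S, qS925 γ S e = h := by
  set a : ∀ w : InfinitePlace K, GL (Fin 2) w.Completion := fun w =>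
    Matrix.GeneralLinearGroup.map
      ((InfinitePlace.Completion.ringEquivComplexOfIsComplex (hK w)).symm : ℂ →+* w.Completion)
      ((h.2 w : Tw925 γ w) : GL (Fin 2) ℂ) with ha
  set b : ∀ v : HeightOneSpectrum (𝓞 K), GL (Fin 2) (v.adicCompletion K) := fun v =>
    if hv : v ∈ S then ((h.1 ⟨v, hv⟩ : Tv925 γ v) : GL (Fin 2) (v.adicCompletion K))
    else 1 with hb
  have hb1 : ∀ v : HeightOneSpectrum (𝓞 K), v ∉ S → b v = 1 := fun v hv => dif_neg hv
  have hb0 : ∀ (v : HeightOneSpectrum (𝓞 K)) (hv : v ∈ S),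
      b v = ((h.1 ⟨v, hv⟩ : Tv925 γ v) : GL (Fin 2) (v.adicCompletion K)) :=
    fun v hv => dif_pos hv
  have hbint : ∀ᶠ v in Filter.cofinite, b v ∈ intGL159 K v := by
    rw [Filter.eventually_cofinite]
    refine S.finite_toSet.subset fun v hv => ?_
    by_contra hvS
    refine hv ?_
    rw [hb1 v hvS]
    exact (intGL159 K v).one_mem
  have hgF : ∀ v : HeightOneSpectrum (𝓞 K), finGL305 v (mkGL159 a b hbint) = b v :=
    fun v => mkGL_fin159 a b hbint v
  have hgI : ∀ w : InfinitePlace K,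
      infGL305 w (mkGL159 a b hbint) = ((h.2 w : Tw925 γ w) : GL (Fin 2) ℂ) := by
    intro w
    have e : infGL305 w (mkGL159 a b hbint)
        = Matrix.GeneralLinearGroup.map (InfinitePlace.Completion.extensionEmbedding w) (a w) :=
      mkGL_inf159 a b hbint w
    rw [e]
    refine Units.ext ?_
    refine Matrix.ext fun k l => ?_
    simp only [ha, Matrix.GeneralLinearGroup.map_apply]
    exact (InfinitePlace.Completion.ringEquivComplexOfIsComplex (hK w)).apply_symm_apply _
  have hg : mkGL159 a b hbint ∈ TA925 γ := by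
    refine mem_TA_of925 γ _ (fun v => ?_) (fun w => ?_)
    · rw [hgF]
      by_cases hv : v ∈ S
      · rw [hb0 v hv]
        exact (h.1 ⟨v, hv⟩).2
      · rw [hb1 v hv]
        exact (Tv925 γ v).one_mem
    · rw [hgI]
      exact (h.2 w).2
  refine ⟨⟨mkGL159 a b hbint, hg⟩, ?_, ?_⟩
  · rw [mem_ES_iff925]
    intro v hv
    change T6.InU 0 (finGL305 v (mkGL159 a b hbint))
    rw [hgF, hb1 v hv]
    exact (mem_intGL_iff925 v 1).1 (intGL159 K v).one_mem
  · refine Prod.ext (funext fun v => Subtype.ext ?_) (funext fun w => Subtype.ext ?_)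
    · change finGL305 v.1 (mkGL159 a b hbint) = _
      rw [hgF, hb0 v.1 v.2]
    · exact hgI w

/-! ## 6. `q_S` is proper on `E_S` -/

open Classical in
theorem proper_qS925 (γ : GL (Fin 2) K) (S : Finset (HeightOneSpectrum (𝓞 K)))
    (C : Set (HS925 γ S)) (hC : IsCompact C) :
    ∃ C' : Set (TA925 γ), IsCompact C' ∧
      (qS925 γ S) ⁻¹' C ∩ (ES925 γ S : Set (TA925 γ)) ⊆ C' := by
  set C'' : ∀ i : Pl159 K, Set (LocGL159 K i) := fun i =>
    match i with
    | Sum.inl w => (fun x : HS925 γ S => ((x.2 w : Tw925 γ w) : GL (Fin 2) ℂ)) '' C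
    | Sum.inr v =>
      if hv : v ∈ S then
        (fun x : HS925 γ S =>
          ((x.1 ⟨v, hv⟩ : Tv925 γ v) : GL (Fin 2) (v.adicCompletion K))) '' C
      else ∅ with hC''def
  have hCl : ∀ w : InfinitePlace K, C'' (Sum.inl w)
      = (fun x : HS925 γ S => ((x.2 w : Tw925 γ w) : GL (Fin 2) ℂ)) '' C := fun _ => rfl
  have hCr : ∀ (v : HeightOneSpectrum (𝓞 K)) (hv : v ∈ S), C'' (Sum.inr v)
      = (fun x : HS925 γ S =>
          ((x.1 ⟨v, hv⟩ : Tv925 γ v) : GL (Fin 2) (v.adicCompletion K))) '' C :=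
    fun v hv => dif_pos hv
  have hcomp : ∀ i ∈ baseSet159 K S, IsCompact (C'' i) := by
    intro i hi
    cases i with
    | inl w =>
      rw [hCl w]
      have hc : Continuous (fun x : HS925 γ S => ((x.2 w : Tw925 γ w) : GL (Fin 2) ℂ)) :=
        continuous_subtype_val.comp
          ((continuous_apply (A := fun w : InfinitePlace K => Tw925 γ w) w).comp continuous_snd)
      exact hC.image hc
    | inr v =>
      have hv := (inr_mem_baseSet159 S v).1 hi
      rw [hCr v hv]
      have hc : Continuous (fun x : HS925 γ S =>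
          ((x.1 ⟨v, hv⟩ : Tv925 γ v) : GL (Fin 2) (v.adicCompletion K))) :=
        continuous_subtype_val.comp
          ((continuous_apply (A := fun v : S => Tv925 γ v.1) (⟨v, hv⟩ : S)).comp continuous_fst)
      exact hC.image hc
  obtain ⟨C₀, hC₀, hsub⟩ := proper_restr159 (K := K) (baseSet159 K S)
    (fun w => inl_mem_baseSet159 S w) C'' hcomp
  refine ⟨Subtype.val ⁻¹' C₀,
    (isClosed_TA925 γ).isClosedEmbedding_subtypeVal.isCompact_preimage hC₀, ?_⟩
  rintro t ⟨ht1, ht2⟩
  apply hsub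
  refine ⟨ht2, fun i hi => ?_⟩
  cases i with
  | inl w =>
    rw [hCl w]
    exact ⟨qS925 γ S t, ht1, rfl⟩
  | inr v =>
    have hv := (inr_mem_baseSet159 S v).1 hi
    rw [hCr v hv]
    exact ⟨qS925 γ S t, ht1, rfl⟩

end Fermat.Agent.LT.T7.H925.TorSplit

end
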