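import Mathlib
import Fermat.Agent.LT.T7.H925.TorSplitCore

/-!
# Row LT, tower T7, leaf T7.L2.1.C2.7.5 `TorSplitC305` (helper925, spare of registry row 2569)

OFF-MAIN.  No hole, nothing assumed.  ADDITIVE (suffix `925`).

`torSplitC925 K : H305.TorSplitC305 K`, VERBATIM (cut of helper305, `MatchCut.lean`),
unconditional.

`K` totally complex, `γ ∈ GL₂(K)`, `μT` a Haar measure of the adelic torus `T_𝔸(γ)`, `μt v`
Haar measures of the local tori `T_v` which give the volume `1` to `{tr integral, det a unit}`,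
`μtc w` Haar measures of the tori `T_w ⊆ GL₂(ℂ)`: there is ONE constant `c_T > 0` such that for
every finite `S` outside which `γ` is good the image of `μT|_{E_S}` under
`t ↦ (t_v)_{v ∈ S ∪ S_∞}` is `c_T` times the product of the local torus measures.

Proof.  `q_S : T_𝔸(γ) → H_S = ∏_{v ∈ S} T_v × ∏_w T_w` is a continuous homomorphism, onto and
proper on the open subgroup `E_S` (`TorSplitCore.lean`), so `(q_S)_* μT|_{E_S}` is a Haar
measure of `H_S` (helper159 `isHaarMeasure_map_restrict159`): `c_S` times the product measure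
(uniqueness of the Haar measure, `H_S` locally compact, second countable).  `c_S = c_{S'}` for
`S ⊆ S'`, `S` good: evaluate on a box, with `T_v ∩ GL₂(𝒪_v) = {tr integral, det a unit}` at
the places of `S' \ S` (helper159 `cent_compact159`), of volume `1`.  Any two good sets are
compared with their union.  The image in the product of the local GROUPS: `Measure.map_prod_map`,
`Measure.pi_map_pi` (the inclusions of the closed subgroups are measurable embeddings).
(`γ` elliptic is not used.)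
-/

set_option autoImplicit false

open AutomorphicForm IsDedekindDomain NumberField MeasureTheory

noncomputable section

namespace Fermat.Agent.LT.T7.H925.TorSplit

open Fermat.Agent.LT Fermat.Agent.LT.H556 Fermat.Agent.LT.H556.A0 Fermat.Agent.LT.T7
open Fermat.Agent.LT.T7.H305 Fermat.Agent.LT.T7.H159

variable {K : Type} [Field K] [NumberField K]

/-- The Borel σ-algebra of a twisted centraliser (local instance of this file). -/
local instance instMeasSub925 {Γ : Type} [Group Γ] [TopologicalSpace Γ] (H : Subgroup Γ) :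
    MeasurableSpace H := borel _

local instance instBorelSub925 {Γ : Type} [Group Γ] [TopologicalSpace Γ] (H : Subgroup Γ) :
    BorelSpace H := ⟨rfl⟩

theorem locallyCompact_Tv925 (γ : GL (Fin 2) K) (v : HeightOneSpectrum (𝓞 K)) :
    LocallyCompactSpace (Tv925 γ v) :=
  haveI := H11.LC.locallyCompactSpace_GL2_adicCompletion_h11 K v
  (isClosed_Tv925 γ v).isClosedEmbedding_subtypeVal.locallyCompactSpace

theorem secondCountable_Tv925 (γ : GL (Fin 2) K) (v : HeightOneSpectrum (𝓞 K)) :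
    SecondCountableTopology (Tv925 γ v) :=
  haveI := secondCountable_GLv159 K v
  Topology.IsEmbedding.subtypeVal.secondCountableTopology

theorem locallyCompact_Tw925 (γ : GL (Fin 2) K) (w : InfinitePlace K) :
    LocallyCompactSpace (Tw925 γ w) :=
  haveI := locallyCompactSpace_GLC159
  (isClosed_Tw925 γ w).isClosedEmbedding_subtypeVal.locallyCompactSpace

theorem secondCountable_Tw925 (γ : GL (Fin 2) K) (w : InfinitePlace K) :
    SecondCountableTopology (Tw925 γ w) :=
  haveI := secondCountable_GLC159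
  Topology.IsEmbedding.subtypeVal.secondCountableTopology

attribute [local instance] locallyCompact_Tv925 secondCountable_Tv925 locallyCompact_Tw925
  secondCountable_Tw925


/-- The image of `μT|_{E_S}` in `∏_{v ∈ S} T_v × ∏_w T_w`. -/
def nuS925 (γ : GL (Fin 2) K) (μT : Measure (TA925 γ)) (S : Finset (HeightOneSpectrum (𝓞 K))) :
    Measure (HS925 γ S) :=
  Measure.map (qS925 γ S) (μT.restrict (ES925 γ S : Set (TA925 γ)))

theorem isHaar_nuS925 (hK : TotCplx K) (γ : GL (Fin 2) K) (μT : Measure (TA925 γ))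
    [μT.IsHaarMeasure] (S : Finset (HeightOneSpectrum (𝓞 K))) :
    (nuS925 γ μT S).IsHaarMeasure :=
  isHaarMeasure_map_restrict159 μT (ES925 γ S) (isOpen_ES925 γ S) (qS925 γ S)
    (continuous_qS925 γ S) (surj_qS925 hK γ S) (fun C hC _ => proper_qS925 γ S C hC)

/-- The product of the local torus measures. -/
def prS925 (γ : GL (Fin 2) K) (μt : ∀ v : HeightOneSpectrum (𝓞 K), Measure (Tv925 γ v))
    (μtc : ∀ w : InfinitePlace K, Measure (Tw925 γ w)) (S : Finset (HeightOneSpectrum (𝓞 K))) :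
    Measure (HS925 γ S) :=
  (Measure.pi fun v : S => μt v.1).prod (Measure.pi fun w => μtc w)

instance isHaar_prS925 (γ : GL (Fin 2) K)
    (μt : ∀ v : HeightOneSpectrum (𝓞 K), Measure (Tv925 γ v))
    (μtc : ∀ w : InfinitePlace K, Measure (Tw925 γ w))
    [∀ v, (μt v).IsHaarMeasure] [∀ w, (μtc w).IsHaarMeasure]
    (S : Finset (HeightOneSpectrum (𝓞 K))) : (prS925 γ μt μtc S).IsHaarMeasure := by
  unfold prS925
  have h1 : ∀ v : S, SigmaFinite (μt v.1) := fun v => inferInstance
  have h2 : ∀ v : S, MeasurableMul (Tv925 γ v.1) := fun v => inferInstance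
  have h3 : (Measure.pi fun v : S => μt v.1).IsHaarMeasure := inferInstance
  have h4 : (Measure.pi fun w => μtc w).IsHaarMeasure := inferInstance
  have h5 : SFinite (Measure.pi fun v : S => μt v.1) := inferInstance
  have h6 : MeasurableMul (∀ v : S, Tv925 γ v.1) := inferInstance
  infer_instance

/-! ## The constants -/

theorem exists_smul925 (hK : TotCplx K) (γ : GL (Fin 2) K) (μT : Measure (TA925 γ))
    [μT.IsHaarMeasure] (μt : ∀ v : HeightOneSpectrum (𝓞 K), Measure (Tv925 γ v))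
    (μtc : ∀ w : InfinitePlace K, Measure (Tw925 γ w))
    [∀ v, (μt v).IsHaarMeasure] [∀ w, (μtc w).IsHaarMeasure]
    (S : Finset (HeightOneSpectrum (𝓞 K))) :
    ∃ c : NNReal, 0 < c ∧ nuS925 γ μT S = c • prS925 γ μt μtc S := by
  have := isHaar_nuS925 hK γ μT S
  exact ⟨Measure.haarScalarFactor (nuS925 γ μT S) (prS925 γ μt μtc S),
    Measure.haarScalarFactor_pos_of_isHaarMeasure _ _, Measure.isMulLeftInvariant_eq_smul _ _⟩

/-- The box `∏_{v ∈ S} C_v × ∏_w D_w`. -/
def box925 (γ : GL (Fin 2) K) (S : Finset (HeightOneSpectrum (𝓞 K)))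
    (C : ∀ v : HeightOneSpectrum (𝓞 K), Set (Tv925 γ v))
    (D : ∀ w : InfinitePlace K, Set (Tw925 γ w)) : Set (HS925 γ S) :=
  (Set.pi Set.univ fun v : S => C v.1) ×ˢ (Set.pi Set.univ fun w => D w)

theorem measurableSet_box925 (γ : GL (Fin 2) K) (S : Finset (HeightOneSpectrum (𝓞 K)))
    (C : ∀ v : HeightOneSpectrum (𝓞 K), Set (Tv925 γ v))
    (D : ∀ w : InfinitePlace K, Set (Tw925 γ w))
    (hC : ∀ v ∈ S, MeasurableSet (C v)) (hD : ∀ w, MeasurableSet (D w)) :
    MeasurableSet (box925 γ S C D) :=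
  (MeasurableSet.univ_pi fun v : S => hC v.1 v.2).prod (MeasurableSet.univ_pi hD)

theorem nuS_box925 (γ : GL (Fin 2) K) (μT : Measure (TA925 γ))
    (S : Finset (HeightOneSpectrum (𝓞 K)))
    (C : ∀ v : HeightOneSpectrum (𝓞 K), Set (Tv925 γ v))
    (D : ∀ w : InfinitePlace K, Set (Tw925 γ w))
    (hC : ∀ v ∈ S, MeasurableSet (C v)) (hD : ∀ w, MeasurableSet (D w)) :
    nuS925 γ μT S (box925 γ S C D)
      = μT {t | t ∈ ES925 γ S ∧ (∀ v ∈ S, pv925 γ v t ∈ C v) ∧ ∀ w, pw925 γ w t ∈ D w} := by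
  rw [nuS925, map_restrict_apply159 μT _ _ (continuous_qS925 γ S)
    (measurableSet_box925 γ S C D hC hD)]
  congr 1
  ext t
  constructor
  · rintro ⟨⟨h1, h2⟩, h3⟩
    exact ⟨h3, fun v hv => h1 ⟨v, hv⟩ (Set.mem_univ _), fun w => h2 w (Set.mem_univ _)⟩
  · rintro ⟨h1, h2, h3⟩
    exact ⟨⟨fun v _ => h2 v.1 v.2, fun w _ => h3 w⟩, h1⟩

theorem prS_box925 (γ : GL (Fin 2) K)
    (μt : ∀ v : HeightOneSpectrum (𝓞 K), Measure (Tv925 γ v))
    (μtc : ∀ w : InfinitePlace K, Measure (Tw925 γ w))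
    [∀ v, (μt v).IsHaarMeasure] [∀ w, (μtc w).IsHaarMeasure]
    (S : Finset (HeightOneSpectrum (𝓞 K)))
    (C : ∀ v : HeightOneSpectrum (𝓞 K), Set (Tv925 γ v))
    (D : ∀ w : InfinitePlace K, Set (Tw925 γ w)) :
    prS925 γ μt μtc S (box925 γ S C D)
      = (∏ v ∈ S, μt v (C v)) * ∏ w : InfinitePlace K, μtc w (D w) := by
  have h1 : ∀ v : S, SigmaFinite (μt v.1) := fun v => inferInstance
  rw [prS925, box925, Measure.prod_prod, Measure.pi_pi, Measure.pi_pi]
  congr 1
  exact Finset.prod_coe_sort S fun v => μt v (C v)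

/-- A measurable set of positive finite Haar measure. -/
theorem exists_nice925 {X : Type} [Group X] [TopologicalSpace X] [IsTopologicalGroup X]
    [MeasurableSpace X] [BorelSpace X] [LocallyCompactSpace X] (μ : Measure X)
    [μ.IsHaarMeasure] : ∃ C : Set X, MeasurableSet C ∧ μ C ≠ 0 ∧ μ C ≠ ⊤ := by
  obtain ⟨C, hC, hC1⟩ := exists_compact_mem_nhds (1 : X)
  refine ⟨closure C, isClosed_closure.measurableSet, ?_, hC.closure.measure_lt_top.ne⟩
  exact (Measure.measure_pos_of_mem_nhds μ (Filter.mem_of_superset hC1 subset_closure)).ne'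

/-- `T_v ∩ GL₂(𝒪_v)`. -/
def Kc925 (γ : GL (Fin 2) K) (v : HeightOneSpectrum (𝓞 K)) : Set (Tv925 γ v) :=
  {t | T6.InU 0 (t : GL (Fin 2) (v.adicCompletion K))}

theorem measurableSet_Kc925 (γ : GL (Fin 2) K) (v : HeightOneSpectrum (𝓞 K)) :
    MeasurableSet (Kc925 γ v) := by
  have h : Kc925 γ v = Subtype.val ⁻¹' (intGL159 K v : Set (GL (Fin 2) (v.adicCompletion K))) := by
    ext t
    exact (mem_intGL_iff925 v _).symm
  rw [h]
  exact ((isOpen_intGL159 v).preimage continuous_subtype_val).measurableSet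

open Classical in
/-- THE CONSTANT DOES NOT DEPEND ON `S`. -/
theorem const_unique925 (γ : GL (Fin 2) K) (μT : Measure (TA925 γ))
    (μt : ∀ v : HeightOneSpectrum (𝓞 K), Measure (Tv925 γ v))
    (μtc : ∀ w : InfinitePlace K, Measure (Tw925 γ w))
    [∀ v, (μt v).IsHaarMeasure] [∀ w, (μtc w).IsHaarMeasure]
    (S S' : Finset (HeightOneSpectrum (𝓞 K))) (hSS' : S ⊆ S')
    (hgood : ∀ v : HeightOneSpectrum (𝓞 K), v ∉ S → μt v (Kc925 γ v) = 1)
    (c c' : NNReal) (hc : nuS925 γ μT S = c • prS925 γ μt μtc S)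
    (hc' : nuS925 γ μT S' = c' • prS925 γ μt μtc S') : c' = c := by
  choose C hCm hC0 hCt using fun v => exists_nice925 (μt v)
  choose D hDm hD0 hDt using fun w => exists_nice925 (μtc w)
  set C' : ∀ v, Set (Tv925 γ v) := fun v => if v ∈ S then C v else Kc925 γ v with hC'
  have hC'm : ∀ v ∈ S', MeasurableSet (C' v) := by
    intro v _
    by_cases hv : v ∈ S
    · simp only [hC', if_pos hv]; exact hCm v
    · simp only [hC', if_neg hv]; exact measurableSet_Kc925 γ v
  have hset : {t | t ∈ ES925 γ S' ∧ (∀ v ∈ S', pv925 γ v t ∈ C' v) ∧ ∀ w, pw925 γ w t ∈ D w}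
      = {t | t ∈ ES925 γ S ∧ (∀ v ∈ S, pv925 γ v t ∈ C v) ∧ ∀ w, pw925 γ w t ∈ D w} := by
    ext t
    simp only [Set.mem_ofPred_eq, mem_ES_iff925]
    constructor
    · rintro ⟨h1, h2, h3⟩
      refine ⟨fun v hv => ?_, fun v hv => ?_, h3⟩
      · by_cases hv' : v ∈ S'
        · have := h2 v hv'
          simp only [hC', if_neg hv] at this
          exact this
        · exact h1 v hv'
      · have := h2 v (hSS' hv)
        simpa only [hC', if_pos hv] using this
    · rintro ⟨h1, h2, h3⟩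
      refine ⟨fun v hv => h1 v fun hvS => hv (hSS' hvS), fun v _ => ?_, h3⟩
      by_cases hv : v ∈ S
      · simp only [hC', if_pos hv]; exact h2 v hv
      · simp only [hC', if_neg hv]; exact h1 v hv
  have e1 := nuS_box925 γ μT S C D (fun v _ => hCm v) hDm
  have e2 := nuS_box925 γ μT S' C' D hC'm hDm
  rw [hset, ← e1, hc, hc'] at e2
  simp only [Measure.smul_apply, prS_box925] at e2
  have hprod : ∏ v ∈ S', μt v (C' v) = ∏ v ∈ S, μt v (C v) := by
    rw [← Finset.prod_sdiff hSS']
    have h1 : ∏ v ∈ S' \ S, μt v (C' v) = 1 := by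
      refine Finset.prod_eq_one fun v hv => ?_
      have hv' := (Finset.mem_sdiff.mp hv).2
      simp only [hC', if_neg hv']
      exact hgood v hv'
    have h2 : ∏ v ∈ S, μt v (C' v) = ∏ v ∈ S, μt v (C v) := by
      refine Finset.prod_congr rfl fun v hv => ?_
      simp only [hC', if_pos hv]
    rw [h1, h2, one_mul]
  rw [hprod] at e2
  have hP0 : (∏ v ∈ S, μt v (C v)) * ∏ w : InfinitePlace K, μtc w (D w) ≠ 0 :=
    mul_ne_zero (Finset.prod_ne_zero_iff.mpr fun v _ => hC0 v)
      (Finset.prod_ne_zero_iff.mpr fun w _ => hD0 w)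
  have hPt : (∏ v ∈ S, μt v (C v)) * ∏ w : InfinitePlace K, μtc w (D w) ≠ ⊤ :=
    ENNReal.mul_ne_top (ENNReal.prod_ne_top fun v _ => hCt v)
      (ENNReal.prod_ne_top fun w _ => hDt w)
  simp only [ENNReal.smul_def, smul_eq_mul] at e2
  have := (ENNReal.mul_left_inj hP0 hPt).mp e2
  exact_mod_cast this

theorem goodOut_mono925 {γ : GL (Fin 2) K} {S S' : Finset (HeightOneSpectrum (𝓞 K))}
    (hSS' : S ⊆ S') (h : GoodOut305 S γ) : GoodOut305 S' γ :=
  fun v hv => h v fun hvS => hv (hSS' hvS)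

/-- **THE TORUS CONSTANT** (on the product of the local tori). -/
theorem torSplit_prod925 (hK : TotCplx K) (γ : GL (Fin 2) K) (μT : Measure (TA925 γ))
    [μT.IsHaarMeasure] (μt : ∀ v : HeightOneSpectrum (𝓞 K), Measure (Tv925 γ v))
    (μtc : ∀ w : InfinitePlace K, Measure (Tw925 γ w))
    [∀ v, (μt v).IsHaarMeasure] [∀ w, (μtc w).IsHaarMeasure]
    (hnorm : ∀ v : HeightOneSpectrum (𝓞 K),
      μt v {t | Valued.v ((t : GL (Fin 2) (v.adicCompletion K)) :
          Matrix (Fin 2) (Fin 2) (v.adicCompletion K)).trace ≤ 1 ∧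
        Valued.v ((t : GL (Fin 2) (v.adicCompletion K)) :
          Matrix (Fin 2) (Fin 2) (v.adicCompletion K)).det = 1} = 1) :
    ∃ c : NNReal, 0 < c ∧ ∀ S : Finset (HeightOneSpectrum (𝓞 K)), GoodOut305 S γ →
      nuS925 γ μT S = c • prS925 γ μt μtc S := by
  classical
  have hgood : ∀ S : Finset (HeightOneSpectrum (𝓞 K)), GoodOut305 S γ →
      ∀ v : HeightOneSpectrum (𝓞 K), v ∉ S → μt v (Kc925 γ v) = 1 := by
    intro S hS v hv
    obtain ⟨hU, hd⟩ := hS v hv
    rw [← hnorm v]
    congr 1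
    ext t
    exact (locTor_compact_iff925 (locG305 v γ) (t : GL (Fin 2) (v.adicCompletion K)) hU hd
      t.2).symm
  by_cases hex : ∃ S₁ : Finset (HeightOneSpectrum (𝓞 K)), GoodOut305 S₁ γ
  · obtain ⟨S₁, hS₁⟩ := hex
    obtain ⟨c₁, hc₁0, hc₁⟩ := exists_smul925 hK γ μT μt μtc S₁
    refine ⟨c₁, hc₁0, fun S hS => ?_⟩
    obtain ⟨c, -, hc⟩ := exists_smul925 hK γ μT μt μtc S
    obtain ⟨c₂, -, hc₂⟩ := exists_smul925 hK γ μT μt μtc (S ∪ S₁)
    have e1 : c₂ = c := const_unique925 γ μT μt μtc S (S ∪ S₁) Finset.subset_union_left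
      (hgood S hS) c c₂ hc hc₂
    have e2 : c₂ = c₁ := const_unique925 γ μT μt μtc S₁ (S ∪ S₁) Finset.subset_union_right
      (hgood S₁ hS₁) c₁ c₂ hc₁ hc₂
    rw [hc, ← e1, e2]
  · exact ⟨1, one_pos, fun S hS => absurd ⟨S, hS⟩ hex⟩

/-! ## The image in the product of the local groups -/

/-- The Borel σ-algebra of `GL₂(K_v)` (local instance of this file). -/
local instance instMeasGLv925 (v : HeightOneSpectrum (𝓞 K)) :
    MeasurableSpace (GL (Fin 2) (v.adicCompletion K)) := borel _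

local instance instBorelGLv925 (v : HeightOneSpectrum (𝓞 K)) :
    BorelSpace (GL (Fin 2) (v.adicCompletion K)) := ⟨rfl⟩

/-- The Borel σ-algebra of `GL₂(ℂ)` (local instance of this file). -/
local instance instMeasGLC925 : MeasurableSpace (GL (Fin 2) ℂ) := borel _

local instance instBorelGLC925 : BorelSpace (GL (Fin 2) ℂ) := ⟨rfl⟩

/-- The inclusion of the product of the local tori in the product of the local groups. -/
def jS925 (γ : GL (Fin 2) K) (S : Finset (HeightOneSpectrum (𝓞 K))) :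
    HS925 γ S → (∀ v : S, GL (Fin 2) ((v : HeightOneSpectrum (𝓞 K)).adicCompletion K)) ×
      (InfinitePlace K → GL (Fin 2) ℂ) :=
  Prod.map (fun a v => ((a v : Tv925 γ v.1) : GL (Fin 2) (v.1.adicCompletion K)))
    (fun b w => ((b w : Tw925 γ w) : GL (Fin 2) ℂ))

theorem compS_eq925 (γ : GL (Fin 2) K) (S : Finset (HeightOneSpectrum (𝓞 K))) (t : TA925 γ) :
    compS305 S (t : G K) = jS925 γ S (qS925 γ S t) := rfl

theorem measurable_val_Tv925 (γ : GL (Fin 2) K) (v : HeightOneSpectrum (𝓞 K)) :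
    @Measurable (Tv925 γ v) (GL (Fin 2) (v.adicCompletion K)) (borel _) (borel _)
      Subtype.val :=
  continuous_subtype_val.measurable

theorem measurable_val_Tw925 (γ : GL (Fin 2) K) (w : InfinitePlace K) :
    @Measurable (Tw925 γ w) (GL (Fin 2) ℂ) (borel _) (borel _) Subtype.val :=
  continuous_subtype_val.measurable

theorem measurableEmbedding_val_Tv925 (γ : GL (Fin 2) K) (v : HeightOneSpectrum (𝓞 K)) :
    @MeasurableEmbedding (Tv925 γ v) (GL (Fin 2) (v.adicCompletion K)) (borel _) (borel _)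
      Subtype.val :=
  @Topology.IsClosedEmbedding.measurableEmbedding (Tv925 γ v)
    (GL (Fin 2) (v.adicCompletion K)) _ (borel _) ⟨rfl⟩ _ (borel _) ⟨rfl⟩ Subtype.val
    (isClosed_Tv925 γ v).isClosedEmbedding_subtypeVal

theorem measurableEmbedding_val_Tw925 (γ : GL (Fin 2) K) (w : InfinitePlace K) :
    @MeasurableEmbedding (Tw925 γ w) (GL (Fin 2) ℂ) (borel _) (borel _) Subtype.val :=
  @Topology.IsClosedEmbedding.measurableEmbedding (Tw925 γ w)
    (GL (Fin 2) ℂ) _ (borel _) ⟨rfl⟩ _ (borel _) ⟨rfl⟩ Subtype.val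
    (isClosed_Tw925 γ w).isClosedEmbedding_subtypeVal

theorem map_jS_prS925 (γ : GL (Fin 2) K)
    (μt : ∀ v : HeightOneSpectrum (𝓞 K), Measure (Tv925 γ v))
    (μtc : ∀ w : InfinitePlace K, Measure (Tw925 γ w))
    [∀ v, (μt v).IsHaarMeasure] [∀ w, (μtc w).IsHaarMeasure]
    (S : Finset (HeightOneSpectrum (𝓞 K))) :
    Measure.map (jS925 γ S) (prS925 γ μt μtc S)
      = (Measure.pi fun v : S => Measure.map Subtype.val (μt v.1)).prod
          (Measure.pi fun w : InfinitePlace K => Measure.map Subtype.val (μtc w)) := by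
  have h1 : ∀ v : S, SigmaFinite (μt v.1) := fun v => inferInstance
  have h2 : ∀ v : S, SigmaFinite (Measure.map Subtype.val (μt v.1)) :=
    fun v => (measurableEmbedding_val_Tv925 γ v.1).sigmaFinite_map
  have h3 : ∀ w : InfinitePlace K, SigmaFinite (Measure.map Subtype.val (μtc w)) :=
    fun w => (measurableEmbedding_val_Tw925 γ w).sigmaFinite_map
  have m1 : Measurable (fun (a : ∀ v : S, Tv925 γ v.1) (v : S) =>
      ((a v : Tv925 γ v.1) : GL (Fin 2) (v.1.adicCompletion K))) :=
    measurable_pi_lambda _ fun v => (measurable_val_Tv925 γ v.1).comp (measurable_pi_apply v)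
  have m2 : Measurable (fun (b : ∀ w : InfinitePlace K, Tw925 γ w) (w : InfinitePlace K) =>
      ((b w : Tw925 γ w) : GL (Fin 2) ℂ)) :=
    measurable_pi_lambda _ fun w => (measurable_val_Tw925 γ w).comp (measurable_pi_apply w)
  rw [prS925, jS925, ← Measure.map_prod_map _ _ m1 m2,
    Measure.pi_map_pi (fun v : S => (measurable_val_Tv925 γ v.1).aemeasurable),
    Measure.pi_map_pi (fun w : InfinitePlace K => (measurable_val_Tw925 γ w).aemeasurable)]

theorem measurable_jS925 (γ : GL (Fin 2) K) (S : Finset (HeightOneSpectrum (𝓞 K))) :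
    Measurable (jS925 γ S) := by
  have m1 : Measurable (fun (a : ∀ v : S, Tv925 γ v.1) (v : S) =>
      ((a v : Tv925 γ v.1) : GL (Fin 2) (v.1.adicCompletion K))) :=
    measurable_pi_lambda _ fun v => (measurable_val_Tv925 γ v.1).comp (measurable_pi_apply v)
  have m2 : Measurable (fun (b : ∀ w : InfinitePlace K, Tw925 γ w) (w : InfinitePlace K) =>
      ((b w : Tw925 γ w) : GL (Fin 2) ℂ)) :=
    measurable_pi_lambda _ fun w => (measurable_val_Tw925 γ w).comp (measurable_pi_apply w)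
  exact m1.prodMap m2

/-- **THE TORUS CONSTANT** (in the product of the local groups). -/
theorem torSplit_amb925 (hK : TotCplx K) (γ : GL (Fin 2) K) (μT : Measure (TA925 γ))
    [μT.IsHaarMeasure] (μt : ∀ v : HeightOneSpectrum (𝓞 K), Measure (Tv925 γ v))
    (μtc : ∀ w : InfinitePlace K, Measure (Tw925 γ w))
    [∀ v, (μt v).IsHaarMeasure] [∀ w, (μtc w).IsHaarMeasure]
    (hnorm : ∀ v : HeightOneSpectrum (𝓞 K),
      μt v {t | Valued.v ((t : GL (Fin 2) (v.adicCompletion K)) :
          Matrix (Fin 2) (Fin 2) (v.adicCompletion K)).trace ≤ 1 ∧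
        Valued.v ((t : GL (Fin 2) (v.adicCompletion K)) :
          Matrix (Fin 2) (Fin 2) (v.adicCompletion K)).det = 1} = 1) :
    ∃ c : ℝ, 0 < c ∧ ∀ S : Finset (HeightOneSpectrum (𝓞 K)), GoodOut305 S γ →
      Measure.map (fun t : TA925 γ => compS305 S (t : G K))
          (μT.restrict {t | OutT305 S (t : G K)})
        = ENNReal.ofReal c •
          ((Measure.pi fun v : S => Measure.map Subtype.val (μt v.1)).prod
            (Measure.pi fun w : InfinitePlace K => Measure.map Subtype.val (μtc w))) := by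
  obtain ⟨c, hc0, hc⟩ := torSplit_prod925 hK γ μT μt μtc hnorm
  refine ⟨(c : ℝ), by exact_mod_cast hc0, fun S hS => ?_⟩
  have e := hc S hS
  have hset : {t : TA925 γ | OutT305 S (t : G K)} = (ES925 γ S : Set (TA925 γ)) :=
    Set.ext fun t => (mem_ES_iff_out925 γ S t).symm
  have hfun : (fun t : TA925 γ => compS305 S (t : G K)) = jS925 γ S ∘ qS925 γ S := rfl
  rw [hset, hfun, ← Measure.map_map (measurable_jS925 γ S) (continuous_qS925 γ S).measurable,
    ← map_jS_prS925, ENNReal.ofReal_coe_nnreal]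
  have e' : Measure.map (qS925 γ S) (μT.restrict (ES925 γ S : Set (TA925 γ)))
      = c • prS925 γ μt μtc S := e
  rw [e']
  refine Measure.ext fun A hA => ?_
  rw [Measure.map_apply (measurable_jS925 γ S) hA, Measure.smul_apply, Measure.smul_apply,
    Measure.map_apply (measurable_jS925 γ S) hA]
  rfl

/-! ## The leaf -/

/-- **T7.L2.1.C2.7.5 `H305.TorSplitC305`**, verbatim, unconditional. -/
theorem torSplitC925 (K : Type) [Field K] [NumberField K] : TorSplitC305 K := by
  intro hK γ _ μT hμT L hLt hLc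
  have i1 : μT.IsHaarMeasure := hμT
  have i2 : ∀ v : HeightOneSpectrum (𝓞 K), (L.μt v).IsHaarMeasure := fun v => (hLt v).1
  have i3 : ∀ w : InfinitePlace K, (L.μtc w).IsHaarMeasure := hLc
  obtain ⟨c, hc0, hc⟩ := torSplit_amb925 hK γ μT L.μt L.μtc (fun v => (hLt v).2)
  exact ⟨c, hc0, fun S hS => hc S hS⟩

end Fermat.Agent.LT.T7.H925.TorSplit
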