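import Mathlib
import Fermat.Agent.LT.T7.H925.TorSplit
import Fermat.Agent.LT.T7.H298.MatchQCut
import Fermat.Agent.LT.T7.H973.RestrGLQ

/-!
# Row LT, tower T7, Q-mirror, leaf Q2.7.5 `TorSplitQC298` (helper925)

OFF-MAIN.  No hole, nothing assumed.  ADDITIVE (suffix `Q925`).

`torSplitQC925 : MQ298.TorSplitQC298`, VERBATIM (cut of helper298, `T7/H298/MatchQCut.lean`),
unconditional.  Mirror over `ℚ` (one real place, `GL₂(ℝ)`) of `torSplitC925`
(`T7/H925/TorSplit.lean`): the same proof, with the restricted product structure of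
`GL₂(𝔸_ℚ)` of helper973 (`T7/H973/RestrGLQ.lean`: `reGLQ_mkGL973`, `proper_restrQ973`).

`q_S : T_𝔸(γ) → H_S = ∏_{v ∈ S} T_v × T_∞` is a continuous homomorphism, onto and proper on the
open subgroup `E_S`, so `(q_S)_* μT|_{E_S}` is a Haar measure of `H_S`: `c_S` times the product
measure.  `c_S = c_{S'}` for `S ⊆ S'`, `S` good (boxes; `T_v ∩ GL₂(ℤ_v) = {tr integral, det a
unit}` has volume `1`).  The image in the product of the local GROUPS: `Measure.map_prod_map`,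
`Measure.pi_map_pi`.  (`γ` elliptic is not used.)
-/

set_option autoImplicit false

open AutomorphicForm IsDedekindDomain NumberField MeasureTheory

noncomputable section

namespace Fermat.Agent.LT.T7.H925.TorSplit

open Fermat.Agent.LT Fermat.Agent.LT.H556 Fermat.Agent.LT.H556.A0 Fermat.Agent.LT.T7
open Fermat.Agent.LT.T7.H305 Fermat.Agent.LT.T7.H159 Fermat.Agent.LT.T7.H973

attribute [local instance] instMeasSub925 instBorelSub925 locallyCompact_Tv925
  secondCountable_Tv925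

/-! ## 1. The real torus, the components -/

/-- The local torus at the real place of `ℚ`. -/
abbrev TrQ925 (γ : GL (Fin 2) ℚ) : Subgroup (GL (Fin 2) ℝ) :=
  cent305 (MQ298.reGLQ298 (T5.ratG γ))

theorem reGL_eqQ925 : MQ298.reGLQ298 = reGLQ973 := rfl

theorem isClosed_TrQ925 (γ : GL (Fin 2) ℚ) : IsClosed (TrQ925 γ : Set (GL (Fin 2) ℝ)) :=
  isClosed_twCentSub925 _ continuous_id _

theorem locallyCompact_TrQ925 (γ : GL (Fin 2) ℚ) : LocallyCompactSpace (TrQ925 γ) :=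
  haveI := locallyCompactSpace_GLR973
  (isClosed_TrQ925 γ).isClosedEmbedding_subtypeVal.locallyCompactSpace

theorem secondCountable_TrQ925 (γ : GL (Fin 2) ℚ) : SecondCountableTopology (TrQ925 γ) :=
  haveI := secondCountable_GLR973
  Topology.IsEmbedding.subtypeVal.secondCountableTopology

attribute [local instance] locallyCompact_TrQ925 secondCountable_TrQ925

theorem reGL_memQ925 (γ : GL (Fin 2) ℚ) (t : G ℚ) (ht : t ∈ TA925 γ) :
    MQ298.reGLQ298 t ∈ TrQ925 γ :=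
  mem_twCentSub_map925 MQ298.reGLQ298 (T5.AdelicAut.id ℚ).onG
    (MonoidHom.id _) (T5.ratG γ) t (by rw [onG_id925]; rfl) ht

/-- The complex component of an element of `GL₂(𝔸_ℚ)` is its real component. -/
theorem infGL_eq_ofRealQ925 (w : InfinitePlace ℚ) (x : G ℚ) :
    infGL305 w x = Matrix.GeneralLinearGroup.map Complex.ofRealHom (MQ298.reGLQ298 x) := by
  apply Units.ext
  refine Matrix.ext fun i j => ?_
  exact infHom_eq_reHomQ973 w _

theorem mem_TA_ofQ925 (γ : GL (Fin 2) ℚ) (g : G ℚ)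
    (hF : ∀ v : HeightOneSpectrum (𝓞 ℚ), finGL305 v g ∈ Tv925 γ v)
    (hR : MQ298.reGLQ298 g ∈ TrQ925 γ) : g ∈ TA925 γ := by
  refine mem_TA_of925 γ g hF (fun w => ?_)
  have h := mem_twCentSub_map925 (Matrix.GeneralLinearGroup.map (n := Fin 2) Complex.ofRealHom)
    (MonoidHom.id _) (MonoidHom.id _) (MQ298.reGLQ298 (T5.ratG γ)) (MQ298.reGLQ298 g) rfl hR
  rw [← infGL_eq_ofRealQ925 w, ← infGL_eq_ofRealQ925 w] at h
  exact h

/-- The component of `T_𝔸(γ)` at the real place. -/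
def prQ925 (γ : GL (Fin 2) ℚ) : TA925 γ →* TrQ925 γ :=
  (MQ298.reGLQ298.comp (TA925 γ).subtype).codRestrict (TrQ925 γ)
    (fun t => reGL_memQ925 γ t.1 t.2)

theorem continuous_prQ925 (γ : GL (Fin 2) ℚ) : Continuous (prQ925 γ) :=
  Continuous.subtype_mk (continuous_reGLQ973.comp continuous_subtype_val) _

/-- `∏_{v ∈ S} T_v × T_∞`. -/
abbrev HSQ925 (γ : GL (Fin 2) ℚ) (S : Finset (HeightOneSpectrum (𝓞 ℚ))) : Type :=
  (∀ v : S, Tv925 γ v.1) × TrQ925 γ

/-- The projection `T_𝔸(γ) → ∏_{v ∈ S} T_v × T_∞`. -/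
def qSQ925 (γ : GL (Fin 2) ℚ) (S : Finset (HeightOneSpectrum (𝓞 ℚ))) :
    TA925 γ →* HSQ925 γ S :=
  MonoidHom.prod (MonoidHom.pi fun v : S => pv925 γ v.1) (prQ925 γ)

theorem continuous_qSQ925 (γ : GL (Fin 2) ℚ) (S : Finset (HeightOneSpectrum (𝓞 ℚ))) :
    Continuous (qSQ925 γ S) :=
  Continuous.prodMk (continuous_pi fun v => continuous_pv925 γ v.1) (continuous_prQ925 γ)

/-! ## 2. `q_S` is onto and proper on `E_S` -/

open Classical in
theorem surj_qSQ925 (γ : GL (Fin 2) ℚ) (S : Finset (HeightOneSpectrum (𝓞 ℚ)))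
    (h : HSQ925 γ S) : ∃ e ∈ ES925 γ S, qSQ925 γ S e = h := by
  set a : ∀ w : InfinitePlace ℚ, GL (Fin 2) w.Completion := fun w =>
    Matrix.GeneralLinearGroup.map
      ((InfinitePlace.Completion.ringEquivRealOfIsReal (isReal_ratPlace973 w)).symm :
        ℝ →+* w.Completion)
      ((h.2 : TrQ925 γ) : GL (Fin 2) ℝ) with ha
  set b : ∀ v : HeightOneSpectrum (𝓞 ℚ), GL (Fin 2) (v.adicCompletion ℚ) := fun v =>
    if hv : v ∈ S then ((h.1 ⟨v, hv⟩ : Tv925 γ v) : GL (Fin 2) (v.adicCompletion ℚ))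
    else 1 with hb
  have hb1 : ∀ v : HeightOneSpectrum (𝓞 ℚ), v ∉ S → b v = 1 := fun v hv => dif_neg hv
  have hb0 : ∀ (v : HeightOneSpectrum (𝓞 ℚ)) (hv : v ∈ S),
      b v = ((h.1 ⟨v, hv⟩ : Tv925 γ v) : GL (Fin 2) (v.adicCompletion ℚ)) :=
    fun v hv => dif_pos hv
  have hbint : ∀ᶠ v in Filter.cofinite, b v ∈ intGL159 ℚ v := by
    rw [Filter.eventually_cofinite]
    refine S.finite_toSet.subset fun v hv => ?_
    by_contra hvS
    refine hv ?_
    rw [hb1 v hvS]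
    exact (intGL159 ℚ v).one_mem
  have hgF : ∀ v : HeightOneSpectrum (𝓞 ℚ), finGL305 v (mkGL159 a b hbint) = b v :=
    fun v => mkGL_fin159 a b hbint v
  have hgR : MQ298.reGLQ298 (mkGL159 a b hbint) = ((h.2 : TrQ925 γ) : GL (Fin 2) ℝ) := by
    have e : MQ298.reGLQ298 (mkGL159 a b hbint)
        = Matrix.GeneralLinearGroup.map
          (InfinitePlace.Completion.extensionEmbeddingOfIsReal Rat.isReal_infinitePlace)
          (a Rat.infinitePlace) :=
      reGLQ_mkGL973 a b hbint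
    rw [e]
    refine Units.ext ?_
    refine Matrix.ext fun k l => ?_
    simp only [ha, Matrix.GeneralLinearGroup.map_apply]
    exact (InfinitePlace.Completion.ringEquivRealOfIsReal
      Rat.isReal_infinitePlace).apply_symm_apply _
  have hg : mkGL159 a b hbint ∈ TA925 γ := by
    refine mem_TA_ofQ925 γ _ (fun v => ?_) ?_
    · rw [hgF]
      by_cases hv : v ∈ S
      · rw [hb0 v hv]
        exact (h.1 ⟨v, hv⟩).2
      · rw [hb1 v hv]
        exact (Tv925 γ v).one_mem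
    · rw [hgR]
      exact h.2.2
  refine ⟨⟨mkGL159 a b hbint, hg⟩, ?_, ?_⟩
  · rw [mem_ES_iff925]
    intro v hv
    change T6.InU 0 (finGL305 v (mkGL159 a b hbint))
    rw [hgF, hb1 v hv]
    exact (mem_intGL_iff925 v 1).1 (intGL159 ℚ v).one_mem
  · refine Prod.ext (funext fun v => Subtype.ext ?_) (Subtype.ext ?_)
    · change finGL305 v.1 (mkGL159 a b hbint) = _
      rw [hgF, hb0 v.1 v.2]
    · exact hgR

open Classical in
theorem proper_qSQ925 (γ : GL (Fin 2) ℚ) (S : Finset (HeightOneSpectrum (𝓞 ℚ)))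
    (C : Set (HSQ925 γ S)) (hC : IsCompact C) :
    ∃ C' : Set (TA925 γ), IsCompact C' ∧
      (qSQ925 γ S) ⁻¹' C ∩ (ES925 γ S : Set (TA925 γ)) ⊆ C' := by
  set C'' : ∀ i : PlQ973, Set (LocGLQ973 i) := fun i =>
    match i with
    | Sum.inl _ => (fun x : HSQ925 γ S => ((x.2 : TrQ925 γ) : GL (Fin 2) ℝ)) '' C
    | Sum.inr v =>
      if hv : v ∈ S then
        (fun x : HSQ925 γ S =>
          ((x.1 ⟨v, hv⟩ : Tv925 γ v) : GL (Fin 2) (v.adicCompletion ℚ))) '' C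
      else ∅ with hC''def
  have hCl : ∀ u : Unit, C'' (Sum.inl u)
      = (fun x : HSQ925 γ S => ((x.2 : TrQ925 γ) : GL (Fin 2) ℝ)) '' C := fun _ => rfl
  have hCr : ∀ (v : HeightOneSpectrum (𝓞 ℚ)) (hv : v ∈ S), C'' (Sum.inr v)
      = (fun x : HSQ925 γ S =>
          ((x.1 ⟨v, hv⟩ : Tv925 γ v) : GL (Fin 2) (v.adicCompletion ℚ))) '' C :=
    fun v hv => dif_pos hv
  have hcomp : ∀ i ∈ baseSetQ973 S, IsCompact (C'' i) := by
    intro i hi
    cases i with
    | inl u =>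
      rw [hCl u]
      have hc : Continuous (fun x : HSQ925 γ S => ((x.2 : TrQ925 γ) : GL (Fin 2) ℝ)) :=
        continuous_subtype_val.comp continuous_snd
      exact hC.image hc
    | inr v =>
      have hv := (inr_mem_baseSetQ973 S v).1 hi
      rw [hCr v hv]
      have hc : Continuous (fun x : HSQ925 γ S =>
          ((x.1 ⟨v, hv⟩ : Tv925 γ v) : GL (Fin 2) (v.adicCompletion ℚ))) :=
        continuous_subtype_val.comp
          ((continuous_apply (A := fun v : S => Tv925 γ v.1) (⟨v, hv⟩ : S)).comp continuous_fst)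
      exact hC.image hc
  obtain ⟨C₀, hC₀, hsub⟩ := proper_restrQ973 (baseSetQ973 S)
    (inl_mem_baseSetQ973 S ()) C'' hcomp
  refine ⟨Subtype.val ⁻¹' C₀,
    (isClosed_TA925 γ).isClosedEmbedding_subtypeVal.isCompact_preimage hC₀, ?_⟩
  rintro t ⟨ht1, ht2⟩
  apply hsub
  refine ⟨(mem_restrSubQ_base973 S _).2 ((mem_ES_iff_out925 γ S t).1 ht2), fun i hi => ?_⟩
  cases i with
  | inl u =>
    rw [hCl u]
    exact ⟨qSQ925 γ S t, ht1, rfl⟩
  | inr v =>
    have hv := (inr_mem_baseSetQ973 S v).1 hi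
    rw [hCr v hv]
    exact ⟨qSQ925 γ S t, ht1, rfl⟩

/-! ## 3. The constants -/

/-- The image of `μT|_{E_S}` in `∏_{v ∈ S} T_v × T_∞`. -/
def nuSQ925 (γ : GL (Fin 2) ℚ) (μT : Measure (TA925 γ)) (S : Finset (HeightOneSpectrum (𝓞 ℚ))) :
    Measure (HSQ925 γ S) :=
  Measure.map (qSQ925 γ S) (μT.restrict (ES925 γ S : Set (TA925 γ)))

theorem isHaar_nuSQ925 (γ : GL (Fin 2) ℚ) (μT : Measure (TA925 γ))
    [μT.IsHaarMeasure] (S : Finset (HeightOneSpectrum (𝓞 ℚ))) :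
    (nuSQ925 γ μT S).IsHaarMeasure :=
  isHaarMeasure_map_restrict159 μT (ES925 γ S) (isOpen_ES925 γ S) (qSQ925 γ S)
    (continuous_qSQ925 γ S) (surj_qSQ925 γ S) (fun C hC _ => proper_qSQ925 γ S C hC)

/-- The product of the local torus measures. -/
def prSQ925 (γ : GL (Fin 2) ℚ) (μt : ∀ v : HeightOneSpectrum (𝓞 ℚ), Measure (Tv925 γ v))
    (μtr : Measure (TrQ925 γ)) (S : Finset (HeightOneSpectrum (𝓞 ℚ))) :
    Measure (HSQ925 γ S) :=
  (Measure.pi fun v : S => μt v.1).prod μtr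

instance isHaar_prSQ925 (γ : GL (Fin 2) ℚ)
    (μt : ∀ v : HeightOneSpectrum (𝓞 ℚ), Measure (Tv925 γ v))
    (μtr : Measure (TrQ925 γ))
    [∀ v, (μt v).IsHaarMeasure] [μtr.IsHaarMeasure]
    (S : Finset (HeightOneSpectrum (𝓞 ℚ))) : (prSQ925 γ μt μtr S).IsHaarMeasure := by
  unfold prSQ925
  have h1 : ∀ v : S, SigmaFinite (μt v.1) := fun v => inferInstance
  have h2 : ∀ v : S, MeasurableMul (Tv925 γ v.1) := fun v => inferInstance
  have h3 : (Measure.pi fun v : S => μt v.1).IsHaarMeasure := inferInstance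
  have h5 : SFinite (Measure.pi fun v : S => μt v.1) := inferInstance
  have h6 : MeasurableMul (∀ v : S, Tv925 γ v.1) := inferInstance
  infer_instance

theorem exists_smulQ925 (γ : GL (Fin 2) ℚ) (μT : Measure (TA925 γ))
    [μT.IsHaarMeasure] (μt : ∀ v : HeightOneSpectrum (𝓞 ℚ), Measure (Tv925 γ v))
    (μtr : Measure (TrQ925 γ))
    [∀ v, (μt v).IsHaarMeasure] [μtr.IsHaarMeasure]
    (S : Finset (HeightOneSpectrum (𝓞 ℚ))) :
    ∃ c : NNReal, 0 < c ∧ nuSQ925 γ μT S = c • prSQ925 γ μt μtr S := by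
  have := isHaar_nuSQ925 γ μT S
  exact ⟨Measure.haarScalarFactor (nuSQ925 γ μT S) (prSQ925 γ μt μtr S),
    Measure.haarScalarFactor_pos_of_isHaarMeasure _ _, Measure.isMulLeftInvariant_eq_smul _ _⟩

/-- The box `∏_{v ∈ S} C_v × D`. -/
def boxQ925 (γ : GL (Fin 2) ℚ) (S : Finset (HeightOneSpectrum (𝓞 ℚ)))
    (C : ∀ v : HeightOneSpectrum (𝓞 ℚ), Set (Tv925 γ v))
    (D : Set (TrQ925 γ)) : Set (HSQ925 γ S) :=
  (Set.pi Set.univ fun v : S => C v.1) ×ˢ D

theorem measurableSet_boxQ925 (γ : GL (Fin 2) ℚ) (S : Finset (HeightOneSpectrum (𝓞 ℚ)))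
    (C : ∀ v : HeightOneSpectrum (𝓞 ℚ), Set (Tv925 γ v))
    (D : Set (TrQ925 γ))
    (hC : ∀ v ∈ S, MeasurableSet (C v)) (hD : MeasurableSet D) :
    MeasurableSet (boxQ925 γ S C D) :=
  (MeasurableSet.univ_pi fun v : S => hC v.1 v.2).prod hD

theorem nuS_boxQ925 (γ : GL (Fin 2) ℚ) (μT : Measure (TA925 γ))
    (S : Finset (HeightOneSpectrum (𝓞 ℚ)))
    (C : ∀ v : HeightOneSpectrum (𝓞 ℚ), Set (Tv925 γ v))
    (D : Set (TrQ925 γ))
    (hC : ∀ v ∈ S, MeasurableSet (C v)) (hD : MeasurableSet D) :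
    nuSQ925 γ μT S (boxQ925 γ S C D)
      = μT {t | t ∈ ES925 γ S ∧ (∀ v ∈ S, pv925 γ v t ∈ C v) ∧ prQ925 γ t ∈ D} := by
  rw [nuSQ925, map_restrict_apply159 μT _ _ (continuous_qSQ925 γ S)
    (measurableSet_boxQ925 γ S C D hC hD)]
  congr 1
  ext t
  constructor
  · rintro ⟨⟨h1, h2⟩, h3⟩
    exact ⟨h3, fun v hv => h1 ⟨v, hv⟩ (Set.mem_univ _), h2⟩
  · rintro ⟨h1, h2, h3⟩
    exact ⟨⟨fun v _ => h2 v.1 v.2, h3⟩, h1⟩

theorem prS_boxQ925 (γ : GL (Fin 2) ℚ)
    (μt : ∀ v : HeightOneSpectrum (𝓞 ℚ), Measure (Tv925 γ v))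
    (μtr : Measure (TrQ925 γ))
    [∀ v, (μt v).IsHaarMeasure] [μtr.IsHaarMeasure]
    (S : Finset (HeightOneSpectrum (𝓞 ℚ)))
    (C : ∀ v : HeightOneSpectrum (𝓞 ℚ), Set (Tv925 γ v))
    (D : Set (TrQ925 γ)) :
    prSQ925 γ μt μtr S (boxQ925 γ S C D) = (∏ v ∈ S, μt v (C v)) * μtr D := by
  have h1 : ∀ v : S, SigmaFinite (μt v.1) := fun v => inferInstance
  rw [prSQ925, boxQ925, Measure.prod_prod, Measure.pi_pi]
  congr 1
  exact Finset.prod_coe_sort S fun v => μt v (C v)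

open Classical in
/-- THE CONSTANT DOES NOT DEPEND ON `S`. -/
theorem const_uniqueQ925 (γ : GL (Fin 2) ℚ) (μT : Measure (TA925 γ))
    (μt : ∀ v : HeightOneSpectrum (𝓞 ℚ), Measure (Tv925 γ v))
    (μtr : Measure (TrQ925 γ))
    [∀ v, (μt v).IsHaarMeasure] [μtr.IsHaarMeasure]
    (S S' : Finset (HeightOneSpectrum (𝓞 ℚ))) (hSS' : S ⊆ S')
    (hgood : ∀ v : HeightOneSpectrum (𝓞 ℚ), v ∉ S → μt v (Kc925 γ v) = 1)
    (c c' : NNReal) (hc : nuSQ925 γ μT S = c • prSQ925 γ μt μtr S)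
    (hc' : nuSQ925 γ μT S' = c' • prSQ925 γ μt μtr S') : c' = c := by
  choose C hCm hC0 hCt using fun v => exists_nice925 (μt v)
  obtain ⟨D, hDm, hD0, hDt⟩ := exists_nice925 μtr
  set C' : ∀ v, Set (Tv925 γ v) := fun v => if v ∈ S then C v else Kc925 γ v with hC'
  have hC'm : ∀ v ∈ S', MeasurableSet (C' v) := by
    intro v _
    by_cases hv : v ∈ S
    · simp only [hC', if_pos hv]; exact hCm v
    · simp only [hC', if_neg hv]; exact measurableSet_Kc925 γ v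
  have hset : {t | t ∈ ES925 γ S' ∧ (∀ v ∈ S', pv925 γ v t ∈ C' v) ∧ prQ925 γ t ∈ D}
      = {t | t ∈ ES925 γ S ∧ (∀ v ∈ S, pv925 γ v t ∈ C v) ∧ prQ925 γ t ∈ D} := by
    ext t
    simp only [Set.mem_ofPred_eq, mem_ES_iff925]
    constructor
    · rintro ⟨h1, h2, h3⟩
      refine ⟨fun v hv => ?_, fun v hv => ?_, h3⟩
      · by_cases hv' : v ∈ S'
        · have := h2 v hv'
          simp only [hC', if_neg hv] at this
          exact this
        · exact h1 v hv'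
      · have := h2 v (hSS' hv)
        simpa only [hC', if_pos hv] using this
    · rintro ⟨h1, h2, h3⟩
      refine ⟨fun v hv => h1 v fun hvS => hv (hSS' hvS), fun v _ => ?_, h3⟩
      by_cases hv : v ∈ S
      · simp only [hC', if_pos hv]; exact h2 v hv
      · simp only [hC', if_neg hv]; exact h1 v hv
  have e1 := nuS_boxQ925 γ μT S C D (fun v _ => hCm v) hDm
  have e2 := nuS_boxQ925 γ μT S' C' D hC'm hDm
  rw [hset, ← e1, hc, hc'] at e2
  simp only [Measure.smul_apply, prS_boxQ925] at e2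
  have hprod : ∏ v ∈ S', μt v (C' v) = ∏ v ∈ S, μt v (C v) := by
    rw [← Finset.prod_sdiff hSS']
    have h1 : ∏ v ∈ S' \ S, μt v (C' v) = 1 := by
      refine Finset.prod_eq_one fun v hv => ?_
      have hv' := (Finset.mem_sdiff.mp hv).2
      simp only [hC', if_neg hv']
      exact hgood v hv'
    have h2 : ∏ v ∈ S, μt v (C' v) = ∏ v ∈ S, μt v (C v) := by
      refine Finset.prod_congr rfl fun v hv => ?_
      simp only [hC', if_pos hv]
    rw [h1, h2, one_mul]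
  rw [hprod] at e2
  have hP0 : (∏ v ∈ S, μt v (C v)) * μtr D ≠ 0 :=
    mul_ne_zero (Finset.prod_ne_zero_iff.mpr fun v _ => hC0 v) hD0
  have hPt : (∏ v ∈ S, μt v (C v)) * μtr D ≠ ⊤ :=
    ENNReal.mul_ne_top (ENNReal.prod_ne_top fun v _ => hCt v) hDt
  simp only [ENNReal.smul_def, smul_eq_mul] at e2
  have := (ENNReal.mul_left_inj hP0 hPt).mp e2
  exact_mod_cast this

/-- **THE TORUS CONSTANT over `ℚ`** (on the product of the local tori). -/
theorem torSplit_prodQ925 (γ : GL (Fin 2) ℚ) (μT : Measure (TA925 γ))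
    [μT.IsHaarMeasure] (μt : ∀ v : HeightOneSpectrum (𝓞 ℚ), Measure (Tv925 γ v))
    (μtr : Measure (TrQ925 γ))
    [∀ v, (μt v).IsHaarMeasure] [μtr.IsHaarMeasure]
    (hnorm : ∀ v : HeightOneSpectrum (𝓞 ℚ),
      μt v {t | Valued.v ((t : GL (Fin 2) (v.adicCompletion ℚ)) :
          Matrix (Fin 2) (Fin 2) (v.adicCompletion ℚ)).trace ≤ 1 ∧
        Valued.v ((t : GL (Fin 2) (v.adicCompletion ℚ)) :
          Matrix (Fin 2) (Fin 2) (v.adicCompletion ℚ)).det = 1} = 1) :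
    ∃ c : NNReal, 0 < c ∧ ∀ S : Finset (HeightOneSpectrum (𝓞 ℚ)), GoodOut305 S γ →
      nuSQ925 γ μT S = c • prSQ925 γ μt μtr S := by
  classical
  have hgood : ∀ S : Finset (HeightOneSpectrum (𝓞 ℚ)), GoodOut305 S γ →
      ∀ v : HeightOneSpectrum (𝓞 ℚ), v ∉ S → μt v (Kc925 γ v) = 1 := by
    intro S hS v hv
    obtain ⟨hU, hd⟩ := hS v hv
    rw [← hnorm v]
    congr 1
    ext t
    exact (locTor_compact_iff925 (locG305 v γ) (t : GL (Fin 2) (v.adicCompletion ℚ)) hU hd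
      t.2).symm
  by_cases hex : ∃ S₁ : Finset (HeightOneSpectrum (𝓞 ℚ)), GoodOut305 S₁ γ
  · obtain ⟨S₁, hS₁⟩ := hex
    obtain ⟨c₁, hc₁0, hc₁⟩ := exists_smulQ925 γ μT μt μtr S₁
    refine ⟨c₁, hc₁0, fun S hS => ?_⟩
    obtain ⟨c, -, hc⟩ := exists_smulQ925 γ μT μt μtr S
    obtain ⟨c₂, -, hc₂⟩ := exists_smulQ925 γ μT μt μtr (S ∪ S₁)
    have e1 : c₂ = c := const_uniqueQ925 γ μT μt μtr S (S ∪ S₁) Finset.subset_union_left
      (hgood S hS) c c₂ hc hc₂
    have e2 : c₂ = c₁ := const_uniqueQ925 γ μT μt μtr S₁ (S ∪ S₁) Finset.subset_union_right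
      (hgood S₁ hS₁) c₁ c₂ hc₁ hc₂
    rw [hc, ← e1, e2]
  · exact ⟨1, one_pos, fun S hS => absurd ⟨S, hS⟩ hex⟩

/-! ## 4. The image in the product of the local groups -/

attribute [local instance] instMeasGLv925 instBorelGLv925

/-- The Borel σ-algebra of `GL₂(ℝ)` (local instance of this file). -/
local instance instMeasGLRQ925 : MeasurableSpace (GL (Fin 2) ℝ) := borel _

local instance instBorelGLRQ925 : BorelSpace (GL (Fin 2) ℝ) := ⟨rfl⟩

/-- The inclusion of the product of the local tori in the product of the local groups. -/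
def jSQ925 (γ : GL (Fin 2) ℚ) (S : Finset (HeightOneSpectrum (𝓞 ℚ))) :
    HSQ925 γ S → (∀ v : S, GL (Fin 2) ((v : HeightOneSpectrum (𝓞 ℚ)).adicCompletion ℚ)) ×
      GL (Fin 2) ℝ :=
  Prod.map (fun a v => ((a v : Tv925 γ v.1) : GL (Fin 2) (v.1.adicCompletion ℚ)))
    (fun b => ((b : TrQ925 γ) : GL (Fin 2) ℝ))

theorem measurable_val_TrQ925 (γ : GL (Fin 2) ℚ) :
    @Measurable (TrQ925 γ) (GL (Fin 2) ℝ) (borel _) (borel _) Subtype.val :=
  continuous_subtype_val.measurable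

theorem measurableEmbedding_val_TrQ925 (γ : GL (Fin 2) ℚ) :
    @MeasurableEmbedding (TrQ925 γ) (GL (Fin 2) ℝ) (borel _) (borel _) Subtype.val :=
  @Topology.IsClosedEmbedding.measurableEmbedding (TrQ925 γ)
    (GL (Fin 2) ℝ) _ (borel _) ⟨rfl⟩ _ (borel _) ⟨rfl⟩ Subtype.val
    (isClosed_TrQ925 γ).isClosedEmbedding_subtypeVal

theorem measurable_jSQ925 (γ : GL (Fin 2) ℚ) (S : Finset (HeightOneSpectrum (𝓞 ℚ))) :
    Measurable (jSQ925 γ S) := by
  have m1 : Measurable (fun (a : ∀ v : S, Tv925 γ v.1) (v : S) =>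
      ((a v : Tv925 γ v.1) : GL (Fin 2) (v.1.adicCompletion ℚ))) :=
    measurable_pi_lambda _ fun v => (measurable_val_Tv925 γ v.1).comp (measurable_pi_apply v)
  exact m1.prodMap (measurable_val_TrQ925 γ)

theorem map_jS_prSQ925 (γ : GL (Fin 2) ℚ)
    (μt : ∀ v : HeightOneSpectrum (𝓞 ℚ), Measure (Tv925 γ v))
    (μtr : Measure (TrQ925 γ))
    [∀ v, (μt v).IsHaarMeasure] [μtr.IsHaarMeasure]
    (S : Finset (HeightOneSpectrum (𝓞 ℚ))) :
    Measure.map (jSQ925 γ S) (prSQ925 γ μt μtr S)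
      = (Measure.pi fun v : S => Measure.map Subtype.val (μt v.1)).prod
          (Measure.map Subtype.val μtr) := by
  have h1 : ∀ v : S, SigmaFinite (μt v.1) := fun v => inferInstance
  have h2 : ∀ v : S, SigmaFinite (Measure.map Subtype.val (μt v.1)) :=
    fun v => (measurableEmbedding_val_Tv925 γ v.1).sigmaFinite_map
  have m1 : Measurable (fun (a : ∀ v : S, Tv925 γ v.1) (v : S) =>
      ((a v : Tv925 γ v.1) : GL (Fin 2) (v.1.adicCompletion ℚ))) :=
    measurable_pi_lambda _ fun v => (measurable_val_Tv925 γ v.1).comp (measurable_pi_apply v)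
  rw [prSQ925, jSQ925, ← Measure.map_prod_map _ _ m1 (measurable_val_TrQ925 γ),
    Measure.pi_map_pi (fun v : S => (measurable_val_Tv925 γ v.1).aemeasurable)]

/-- **THE TORUS CONSTANT over `ℚ`** (in the product of the local groups). -/
theorem torSplit_ambQ925 (γ : GL (Fin 2) ℚ) (μT : Measure (TA925 γ))
    [μT.IsHaarMeasure] (μt : ∀ v : HeightOneSpectrum (𝓞 ℚ), Measure (Tv925 γ v))
    (μtr : Measure (TrQ925 γ))
    [∀ v, (μt v).IsHaarMeasure] [μtr.IsHaarMeasure]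
    (hnorm : ∀ v : HeightOneSpectrum (𝓞 ℚ),
      μt v {t | Valued.v ((t : GL (Fin 2) (v.adicCompletion ℚ)) :
          Matrix (Fin 2) (Fin 2) (v.adicCompletion ℚ)).trace ≤ 1 ∧
        Valued.v ((t : GL (Fin 2) (v.adicCompletion ℚ)) :
          Matrix (Fin 2) (Fin 2) (v.adicCompletion ℚ)).det = 1} = 1) :
    ∃ c : ℝ, 0 < c ∧ ∀ S : Finset (HeightOneSpectrum (𝓞 ℚ)), GoodOut305 S γ →
      Measure.map (fun t : TA925 γ => MQ298.compSQ298 S (t : G ℚ))
          (μT.restrict {t | OutT305 S (t : G ℚ)})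
        = ENNReal.ofReal c •
          ((Measure.pi fun v : S => Measure.map Subtype.val (μt v.1)).prod
            (Measure.map Subtype.val μtr)) := by
  obtain ⟨c, hc0, hc⟩ := torSplit_prodQ925 γ μT μt μtr hnorm
  refine ⟨(c : ℝ), by exact_mod_cast hc0, fun S hS => ?_⟩
  have e := hc S hS
  have hset : {t : TA925 γ | OutT305 S (t : G ℚ)} = (ES925 γ S : Set (TA925 γ)) :=
    Set.ext fun t => (mem_ES_iff_out925 γ S t).symm
  have hfun : (fun t : TA925 γ => MQ298.compSQ298 S (t : G ℚ)) = jSQ925 γ S ∘ qSQ925 γ S := rfl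
  rw [hset, hfun, ← Measure.map_map (measurable_jSQ925 γ S) (continuous_qSQ925 γ S).measurable,
    ← map_jS_prSQ925, ENNReal.ofReal_coe_nnreal]
  have e' : Measure.map (qSQ925 γ S) (μT.restrict (ES925 γ S : Set (TA925 γ)))
      = c • prSQ925 γ μt μtr S := e
  rw [e']
  refine Measure.ext fun A hA => ?_
  rw [Measure.map_apply (measurable_jSQ925 γ S) hA, Measure.smul_apply, Measure.smul_apply,
    Measure.map_apply (measurable_jSQ925 γ S) hA]
  rfl

/-! ## 5. The leaf -/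

/-- **Q2.7.5 `MQ298.TorSplitQC298`**, verbatim, unconditional. -/
theorem torSplitQC925 : MQ298.TorSplitQC298 := by
  intro γ _ μT hμT L hLt hLr
  have i1 : μT.IsHaarMeasure := hμT
  have i2 : ∀ v : HeightOneSpectrum (𝓞 ℚ), (L.μt v).IsHaarMeasure := fun v => (hLt v).1
  have i3 : L.μtr.IsHaarMeasure := hLr
  obtain ⟨c, hc0, hc⟩ := torSplit_ambQ925 γ μT L.μt L.μtr (fun v => (hLt v).2)
  exact ⟨c, hc0, fun S hS => hc S hS⟩

end Fermat.Agent.LT.T7.H925.TorSplit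

end
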